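/-
S58 library, block E2 (helper9): the nodal cubic `y² + xy = x³` and its parametrisation by the
multiplicative group: `u ↦ (u/(u-1)², u/(u-1)³)` is an injective group homomorphism from `kˣ` to
the group of nonsingular points.  Consequence: over an algebraically closed field there is a
point of exact order `n` for every `n` prime to the characteristic.
-/
import Mathlib

set_option autoImplicit false

namespace Fermat.Agent.S58lib.Mult

open WeierstrassCurve WeierstrassCurve.Affine

/-- The nodal cubic `y² + xy = x³`. -/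
def nodal (k : Type*) [CommRing k] : WeierstrassCurve k := ⟨1, 0, 0, 0, 0⟩

section

variable {k : Type*} [Field k]

@[simp] lemma nodal_a₁ : (nodal k).a₁ = 1 := rfl
@[simp] lemma nodal_a₂ : (nodal k).a₂ = 0 := rfl
@[simp] lemma nodal_a₃ : (nodal k).a₃ = 0 := rfl
@[simp] lemma nodal_a₄ : (nodal k).a₄ = 0 := rfl
@[simp] lemma nodal_a₆ : (nodal k).a₆ = 0 := rfl

/-- The `x`-coordinate of the point with parameter `u`. -/
noncomputable def gX (u : k) : k := u / (u - 1) ^ 2

/-- The `y`-coordinate of the point with parameter `u`. -/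
noncomputable def gY (u : k) : k := u / (u - 1) ^ 3

lemma nonsingular_g {u : k} (h0 : u ≠ 0) (h1 : u ≠ 1) :
    (nodal k).toAffine.Nonsingular (gX u) (gY u) := by
  have ha : u - 1 ≠ 0 := sub_ne_zero.mpr h1
  rw [Affine.nonsingular_iff, Affine.equation_iff]
  simp only [nodal_a₁, nodal_a₂, nodal_a₃, nodal_a₄, nodal_a₆, gX, gY]
  refine ⟨by field_simp; ring, ?_⟩
  by_contra hcon
  rw [not_or, not_not, not_not] at hcon
  obtain ⟨e1, e2⟩ := hcon
  have e1' : (u - 1) = 3 * u := by
    field_simp at e1
    have h : u * ((u - 1) - 3 * u) = 0 := by linear_combination e1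
    rcases mul_eq_zero.mp h with h | h
    · exact absurd h h0
    · linear_combination h
  have e2' : u + 1 = 0 := by
    field_simp at e2
    have h : u * (u + 1) = 0 := by linear_combination e2
    rcases mul_eq_zero.mp h with h | h
    · exact absurd h h0
    · exact h
  apply h0
  linear_combination (-1 : k) * e1' - e2'

lemma gX_eq_iff {u v : k} (hu : u ≠ 1) (hv : v ≠ 1) :
    gX u = gX v ↔ u = v ∨ u * v = 1 := by
  have ha : u - 1 ≠ 0 := sub_ne_zero.mpr hu
  have hb : v - 1 ≠ 0 := sub_ne_zero.mpr hv
  simp only [gX]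
  rw [div_eq_div_iff (pow_ne_zero 2 ha) (pow_ne_zero 2 hb)]
  constructor
  · intro h
    have h' : (u - v) * (u * v - 1) = 0 := by linear_combination (-1 : k) * h
    rcases mul_eq_zero.mp h' with h | h
    · left; exact sub_eq_zero.mp h
    · right; exact sub_eq_zero.mp h
  · rintro (rfl | h)
    · rfl
    · have h' : u * v - 1 = 0 := sub_eq_zero.mpr h
      linear_combination (-(u - v)) * h'

lemma some_eq_some {W : Affine k} {x y x' y' : k} (h : W.Nonsingular x y)
    (h' : W.Nonsingular x' y') (hx : x = x') (hy : y = y') :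
    Point.some x y h = Point.some x' y' h' := by
  subst hx hy; rfl

variable [DecidableEq k]

/-- The parametrisation of the nonsingular points of the nodal cubic by `kˣ`. -/
noncomputable def gm (u : kˣ) : (nodal k).toAffine.Point :=
  if h : (u : k) = 1 then 0 else Point.some (gX (u : k)) (gY (u : k)) (nonsingular_g u.ne_zero h)

lemma gm_of_eq_one {u : kˣ} (h : (u : k) = 1) : gm u = 0 := by
  rw [gm, dif_pos h]

lemma gm_of_ne_one {u : kˣ} (h : (u : k) ≠ 1) :
    gm u = Point.some (gX (u : k)) (gY (u : k)) (nonsingular_g u.ne_zero h) := by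
  rw [gm, dif_neg h]

lemma gm_eq_zero_iff {u : kˣ} : gm u = 0 ↔ u = 1 := by
  constructor
  · intro h
    by_contra hne
    have h1 : (u : k) ≠ 1 := fun h1 => hne (Units.ext h1)
    rw [gm_of_ne_one h1] at h
    exact Point.some_ne_zero _ h
  · rintro rfl
    exact gm_of_eq_one rfl

/-- The parametrisation is multiplicative. -/
theorem gm_mul (u v : kˣ) : gm (u * v) = gm u + gm v := by
  by_cases hu : (u : k) = 1
  · have hu' : u = 1 := Units.ext hu
    rw [hu', one_mul, gm_of_eq_one (u := (1 : kˣ)) Units.val_one, zero_add]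
  by_cases hv : (v : k) = 1
  · have hv' : v = 1 := Units.ext hv
    rw [hv', mul_one, gm_of_eq_one (u := (1 : kˣ)) Units.val_one, add_zero]
  have ha : (u : k) - 1 ≠ 0 := sub_ne_zero.mpr hu
  have hb : (v : k) - 1 ≠ 0 := sub_ne_zero.mpr hv
  have hu0 : (u : k) ≠ 0 := u.ne_zero
  have hv0 : (v : k) ≠ 0 := v.ne_zero
  rw [gm_of_ne_one hu, gm_of_ne_one hv]
  by_cases huv : ((u * v : kˣ) : k) = 1
  · -- opposite points
    rw [gm_of_eq_one huv]
    symm
    rw [Units.val_mul] at huv
    refine Point.add_of_Y_eq ((gX_eq_iff hu hv).mpr (Or.inr huv)) ?_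
    simp only [Affine.negY, nodal_a₁, nodal_a₃, gX, gY]
    have hvu : (v : k) = (u : k)⁻¹ := eq_inv_of_mul_eq_one_right huv
    rw [hvu]
    have hb' : (u : k)⁻¹ - 1 ≠ 0 := by rw [← hvu]; exact hb
    field_simp
    ring
  rw [gm_of_ne_one huv]
  rw [Units.val_mul] at huv
  have hc : (u : k) * (v : k) - 1 ≠ 0 := sub_ne_zero.mpr huv
  by_cases huv' : (u : k) = (v : k)
  · -- doubling
    have : u = v := Units.ext huv'
    subst this
    have hp1 : (u : k) + 1 ≠ 0 := by
      intro h
      apply hc
      linear_combination ((u : k) - 1) * h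
    have hY : gY (u : k) ≠ (nodal k).toAffine.negY (gX (u : k)) (gY (u : k)) := by
      simp only [Affine.negY, nodal_a₁, nodal_a₃, gX, gY]
      intro h
      field_simp at h
      apply hp1
      have h' : (u : k) * ((u : k) + 1) = 0 := by linear_combination h
      rcases mul_eq_zero.mp h' with h | h
      · exact absurd h hu0
      · exact h
    rw [Point.add_self_of_Y_ne hY]
    have hs : (nodal k).toAffine.slope (gX (u : k)) (gX (u : k)) (gY (u : k)) (gY (u : k)) =
        (2 * (u : k) + 1) / (((u : k) - 1) * ((u : k) + 1)) := by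
      rw [Affine.slope_of_Y_ne rfl hY]
      simp only [Affine.negY, nodal_a₁, nodal_a₂, nodal_a₃, nodal_a₄, gX, gY]
      have hden : (u : k) / ((u : k) - 1) ^ 3 -
          (-((u : k) / ((u : k) - 1) ^ 3) - 1 * ((u : k) / ((u : k) - 1) ^ 2) - 0) =
          (u : k) * ((u : k) + 1) / ((u : k) - 1) ^ 3 := by
        field_simp
        ring
      rw [hden]
      field_simp
      ring
    have hc' : (u : k) * (u : k) - 1 = ((u : k) - 1) * ((u : k) + 1) := by ring
    refine some_eq_some _ _ ?_ ?_
    · rw [hs, Units.val_mul]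
      simp only [Affine.addX, nodal_a₁, nodal_a₂, gX]
      rw [hc']
      field_simp
      ring
    · rw [hs, Units.val_mul]
      simp only [Affine.addY, Affine.negAddY, Affine.negY, Affine.addX, nodal_a₁, nodal_a₂,
        nodal_a₃, gX, gY]
      rw [hc']
      field_simp
      ring
  · -- generic case
    have hne : (v : k) - (u : k) ≠ 0 := sub_ne_zero.mpr (Ne.symm huv')
    have hX : gX (u : k) ≠ gX (v : k) := by
      rw [Ne, gX_eq_iff hu hv, not_or]
      exact ⟨huv', huv⟩
    rw [Point.add_of_X_ne hX]
    have hs : (nodal k).toAffine.slope (gX (u : k)) (gX (v : k)) (gY (u : k)) (gY (v : k)) =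
        ((u : k) * (v : k) * ((u : k) + (v : k)) - 3 * (u : k) * (v : k) + 1) /
          (((u : k) - 1) * ((v : k) - 1) * ((u : k) * (v : k) - 1)) := by
      rw [Affine.slope_of_X_ne hX]
      simp only [gX, gY]
      have hx : (u : k) / ((u : k) - 1) ^ 2 - (v : k) / ((v : k) - 1) ^ 2 =
          ((v : k) - (u : k)) * ((u : k) * (v : k) - 1) /
            (((u : k) - 1) ^ 2 * ((v : k) - 1) ^ 2) := by
        field_simp
        ring
      rw [hx]
      field_simp
      ring
    refine some_eq_some _ _ ?_ ?_
    · rw [hs, Units.val_mul]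
      simp only [Affine.addX, nodal_a₁, nodal_a₂, gX]
      field_simp
      ring
    · rw [hs, Units.val_mul]
      simp only [Affine.addY, Affine.negAddY, Affine.negY, Affine.addX, nodal_a₁, nodal_a₂,
        nodal_a₃, gX, gY]
      field_simp
      ring

/-- The parametrisation as a monoid homomorphism. -/
noncomputable def gmHom : kˣ →* Multiplicative (nodal k).toAffine.Point where
  toFun u := Multiplicative.ofAdd (gm u)
  map_one' := by
    rw [gm_of_eq_one (u := (1 : kˣ)) rfl]; rfl
  map_mul' u v := by
    rw [gm_mul]; rfl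

lemma gmHom_injective : Function.Injective (gmHom (k := k)) := by
  rw [injective_iff_map_eq_one]
  intro u hu
  have : gm u = 0 := hu
  exact gm_eq_zero_iff.mp this

/-- Over a separably closed field, the nodal cubic has a (nonsingular) point of exact order `n`
for every `n` which is nonzero in the field. -/
theorem exists_addOrderOf_nodal [IsSepClosed k] (n : ℕ) [NeZero (n : k)] :
    ∃ P : (nodal k).toAffine.Point, addOrderOf P = n := by
  obtain ⟨ζ, hζ⟩ := HasEnoughRootsOfUnity.exists_primitiveRoot k n
  have hn0 : n ≠ 0 := by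
    rintro rfl
    exact NeZero.ne ((0 : ℕ) : k) Nat.cast_zero
  have hζ0 : ζ ≠ 0 := hζ.ne_zero hn0
  have hu : IsPrimitiveRoot (Units.mk0 ζ hζ0) n := by
    rw [← IsPrimitiveRoot.coe_units_iff]
    exact hζ
  refine ⟨gm (Units.mk0 ζ hζ0), ?_⟩
  have h1 : orderOf (gmHom (Units.mk0 ζ hζ0)) = orderOf (Units.mk0 ζ hζ0) :=
    orderOf_injective (gmHom (k := k)) gmHom_injective (Units.mk0 ζ hζ0)
  rw [← hu.eq_orderOf] at h1
  rw [← h1]
  exact (orderOf_ofAdd_eq_addOrderOf _).symm

end

end Fermat.Agent.S58lib.Mult
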