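/-
S58 library, block E2 (helper9): normal form of a nodal Weierstrass cubic.

Over an algebraically closed field of ANY characteristic, a Weierstrass curve with `Δ = 0` and
`c₄ ≠ 0` is isomorphic, by an admissible change of variables, to `y² + xy = x³`.  The singular
point is `(r, t)` with `r = (18 b₆ - b₂ b₄) / c₄`; the three polynomial identities
`node_identity₁/₂/₃` (valid over `ℤ`, checked by `ring`) show that it is singular in all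
characteristics, including `2` and `3`.
-/
import Mathlib
import Fermat.Agent.S51lib.Transfer
import Fermat.Agent.S58lib.Mult.Gm

set_option autoImplicit false

namespace Fermat.Agent.S58lib.Mult

open WeierstrassCurve

section identities

variable {R : Type*} [CommRing R] (W : WeierstrassCurve R)

/-- Numerator of the `x`-coordinate of the singular point: `x₀ = nodeR / c₄`. -/
def nodeR : R := 18 * W.b₆ - W.b₂ * W.b₄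

/-- The cofactor in the third singular point identity. -/
def nodeQ : R :=
    W.a₁ ^ 12 + 20 * W.a₁ ^ 10 * W.a₂ - 60 * W.a₁ ^ 9 * W.a₃ + 160 * W.a₁ ^ 8 * W.a₂ ^ 2 - 120 *
    W.a₁ ^ 8 * W.a₄ - 720 * W.a₁ ^ 7 * W.a₂ * W.a₃ + 640 * W.a₁ ^ 6 * W.a₂ ^ 3 - 1440 * W.a₁ ^ 6
    * W.a₂ * W.a₄ + 1080 * W.a₁ ^ 6 * W.a₃ ^ 2 - 432 * W.a₁ ^ 6 * W.a₆ - 2880 * W.a₁ ^ 5 * W.a₂
    ^ 2 * W.a₃ + 4752 * W.a₁ ^ 5 * W.a₃ * W.a₄ + 1280 * W.a₁ ^ 4 * W.a₂ ^ 4 - 5760 * W.a₁ ^ 4 *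
    W.a₂ ^ 2 * W.a₄ + 3888 * W.a₁ ^ 4 * W.a₂ * W.a₃ ^ 2 - 8640 * W.a₁ ^ 4 * W.a₂ * W.a₆ + 4752 *
    W.a₁ ^ 4 * W.a₄ ^ 2 - 3840 * W.a₁ ^ 3 * W.a₂ ^ 3 * W.a₃ + 24192 * W.a₁ ^ 3 * W.a₂ * W.a₃ *
    W.a₄ - 3888 * W.a₁ ^ 3 * W.a₃ ^ 3 + 25920 * W.a₁ ^ 3 * W.a₃ * W.a₆ + 1024 * W.a₁ ^ 2 * W.a₂
    ^ 5 - 7680 * W.a₁ ^ 2 * W.a₂ ^ 3 * W.a₄ - 6912 * W.a₁ ^ 2 * W.a₂ ^ 2 * W.a₃ ^ 2 - 48384 *
    W.a₁ ^ 2 * W.a₂ ^ 2 * W.a₆ + 24192 * W.a₁ ^ 2 * W.a₂ * W.a₄ ^ 2 - 49248 * W.a₁ ^ 2 * W.a₃ ^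
    2 * W.a₄ + 51840 * W.a₁ ^ 2 * W.a₄ * W.a₆ + 20736 * W.a₁ * W.a₂ ^ 2 * W.a₃ * W.a₄ + 46656 *
    W.a₁ * W.a₂ * W.a₃ ^ 3 + 186624 * W.a₁ * W.a₂ * W.a₃ * W.a₆ - 124416 * W.a₁ * W.a₃ * W.a₄ ^
    2 - 20736 * W.a₂ ^ 3 * W.a₃ ^ 2 - 82944 * W.a₂ ^ 3 * W.a₆ + 20736 * W.a₂ ^ 2 * W.a₄ ^ 2 +
    93312 * W.a₂ * W.a₃ ^ 2 * W.a₄ + 373248 * W.a₂ * W.a₄ * W.a₆ - 34992 * W.a₃ ^ 4 - 279936 *
    W.a₃ ^ 2 * W.a₆ - 82944 * W.a₄ ^ 3 - 559872 * W.a₆ ^ 2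

lemma node_identity₁ :
    6 * nodeR W ^ 2 + W.b₂ * W.c₄ * nodeR W + W.b₄ * W.c₄ ^ 2 = -72 * W.Δ := by
  simp only [nodeR, Δ, b₂, b₄, b₆, b₈, c₄]
  ring

lemma node_identity₂ :
    4 * nodeR W ^ 3 + W.b₂ * W.c₄ * nodeR W ^ 2 + 2 * W.b₄ * W.c₄ ^ 2 * nodeR W +
      W.b₆ * W.c₄ ^ 3 = 4 * W.c₆ * W.Δ := by
  simp only [nodeR, Δ, b₂, b₄, b₆, b₈, c₄, c₆]
  ring

lemma node_identity₃ :
    (3 * nodeR W ^ 2 + 2 * W.a₂ * W.c₄ * nodeR W + W.a₄ * W.c₄ ^ 2) ^ 2 +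
      W.a₁ * (W.a₁ * nodeR W + W.a₃ * W.c₄) *
        (3 * nodeR W ^ 2 + 2 * W.a₂ * W.c₄ * nodeR W + W.a₄ * W.c₄ ^ 2) * W.c₄ -
      W.a₁ ^ 2 * (nodeR W ^ 3 * W.c₄ + W.a₂ * nodeR W ^ 2 * W.c₄ ^ 2 +
        W.a₄ * nodeR W * W.c₄ ^ 3 + W.a₆ * W.c₄ ^ 4) = nodeQ W * W.Δ := by
  simp only [nodeR, nodeQ, Δ, b₂, b₄, b₆, b₈, c₄]
  ring

lemma node_identity₄ : W.b₂ * W.c₄ + 12 * nodeR W = -W.c₆ := by
  simp only [nodeR, c₄, c₆]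
  ring

end identities

section field

variable {k : Type*} [Field k] (W : WeierstrassCurve k)

/-- **The singular point of a nodal cubic**, in all characteristics: if `Δ = 0` and `c₄ ≠ 0`
there are `r, t` at which the Weierstrass polynomial and both partial derivatives vanish, and
moreover `b₂ + 12 r ≠ 0` (the singularity is a node). -/
theorem exists_singular_point (hΔ : W.Δ = 0) (hc₄ : W.c₄ ≠ 0) :
    ∃ r t : k, W.a₃ + r * W.a₁ + 2 * t = 0 ∧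
      W.a₁ * t - (3 * r ^ 2 + 2 * W.a₂ * r + W.a₄) = 0 ∧
      t ^ 2 + W.a₁ * r * t + W.a₃ * t - (r ^ 3 + W.a₂ * r ^ 2 + W.a₄ * r + W.a₆) = 0 ∧
      W.b₂ + 12 * r ≠ 0 := by
  obtain ⟨r, hr⟩ : ∃ r : k, r = nodeR W / W.c₄ := ⟨_, rfl⟩
  have hrR : r * W.c₄ = nodeR W := by rw [hr]; field_simp
  -- the three identities at `r`
  have hI1 : 6 * r ^ 2 + (W.a₁ ^ 2 + 4 * W.a₂) * r + (2 * W.a₄ + W.a₁ * W.a₃) = 0 := by
    have h := node_identity₁ W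
    rw [hΔ, mul_zero, ← hrR] at h
    have h' : W.c₄ ^ 2 * (6 * r ^ 2 + W.b₂ * r + W.b₄) = 0 := by linear_combination h
    have h'' := (mul_eq_zero.mp h').resolve_left (pow_ne_zero 2 hc₄)
    simpa only [b₂, b₄] using h''
  have hI2 : 4 * r ^ 3 + (W.a₁ ^ 2 + 4 * W.a₂) * r ^ 2 + 2 * (2 * W.a₄ + W.a₁ * W.a₃) * r +
      (W.a₃ ^ 2 + 4 * W.a₆) = 0 := by
    have h := node_identity₂ W
    rw [hΔ, mul_zero, ← hrR] at h
    have h' : W.c₄ ^ 3 * (4 * r ^ 3 + W.b₂ * r ^ 2 + 2 * W.b₄ * r + W.b₆) = 0 := by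
      linear_combination h
    have h'' := (mul_eq_zero.mp h').resolve_left (pow_ne_zero 3 hc₄)
    simpa only [b₂, b₄, b₆] using h''
  obtain ⟨g, hg⟩ : ∃ g : k, g = 3 * r ^ 2 + 2 * W.a₂ * r + W.a₄ := ⟨_, rfl⟩
  have hG : g ^ 2 + W.a₁ * (W.a₁ * r + W.a₃) * g -
      W.a₁ ^ 2 * (r ^ 3 + W.a₂ * r ^ 2 + W.a₄ * r + W.a₆) = 0 := by
    have h := node_identity₃ W
    rw [hΔ, mul_zero, ← hrR] at h
    have h' : W.c₄ ^ 4 * (g ^ 2 + W.a₁ * (W.a₁ * r + W.a₃) * g -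
        W.a₁ ^ 2 * (r ^ 3 + W.a₂ * r ^ 2 + W.a₄ * r + W.a₆)) = 0 := by
      rw [hg]; linear_combination h
    exact (mul_eq_zero.mp h').resolve_left (pow_ne_zero 4 hc₄)
  -- the `y`-coordinate
  obtain ⟨α, hα⟩ : ∃ α : k, α = (4 * W.a₁ ^ 2 * W.a₂ + 8 * W.a₂ ^ 2 - 12 * W.b₄) / W.c₄ := ⟨_, rfl⟩
  obtain ⟨β, hβ⟩ : ∃ β : k, β = W.a₁ ^ 3 / W.c₄ := ⟨_, rfl⟩
  have hαβ : 2 * α + W.a₁ * β - 1 = 0 := by
    rw [hα, hβ]
    field_simp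
    simp only [c₄, b₂, b₄]
    ring
  obtain ⟨t, ht⟩ : ∃ t : k, t = α * (-(W.a₁ * r + W.a₃)) + β * g := ⟨_, rfl⟩
  have hFy : W.a₃ + r * W.a₁ + 2 * t = 0 := by
    rw [ht, hg]
    linear_combination β * hI1 + (-(W.a₁ * r + W.a₃)) * hαβ
  have hFx : W.a₁ * t - g = 0 := by
    rw [ht]
    rw [hg] at *
    linear_combination (-α) * hI1 + (3 * r ^ 2 + 2 * W.a₂ * r + W.a₄) * hαβ
  have h4F : 4 * (t ^ 2 + W.a₁ * r * t + W.a₃ * t -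
      (r ^ 3 + W.a₂ * r ^ 2 + W.a₄ * r + W.a₆)) = 0 := by
    linear_combination (2 * t + W.a₁ * r + W.a₃) * hFy - hI2
  have haF : W.a₁ ^ 2 * (t ^ 2 + W.a₁ * r * t + W.a₃ * t -
      (r ^ 3 + W.a₂ * r ^ 2 + W.a₄ * r + W.a₆)) = 0 := by
    linear_combination hG + (W.a₁ * t + g + W.a₁ * (W.a₁ * r + W.a₃)) * hFx
  have hF : t ^ 2 + W.a₁ * r * t + W.a₃ * t - (r ^ 3 + W.a₂ * r ^ 2 + W.a₄ * r + W.a₆) = 0 := by
    have h : W.c₄ * (t ^ 2 + W.a₁ * r * t + W.a₃ * t -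
        (r ^ 3 + W.a₂ * r ^ 2 + W.a₄ * r + W.a₆)) = 0 := by
      have e : W.c₄ = W.a₁ ^ 2 * (W.a₁ ^ 2 + 8 * W.a₂) +
          4 * (4 * W.a₂ ^ 2 - 6 * (2 * W.a₄ + W.a₁ * W.a₃)) := by
        simp only [c₄, b₂, b₄]; ring
      rw [e]
      linear_combination (W.a₁ ^ 2 + 8 * W.a₂) * haF +
        (4 * W.a₂ ^ 2 - 6 * (2 * W.a₄ + W.a₁ * W.a₃)) * h4F
    exact (mul_eq_zero.mp h).resolve_left hc₄
  refine ⟨r, t, hFy, by rw [← hg]; exact hFx, hF, ?_⟩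
  -- the node condition
  intro h0
  have h1 : W.c₆ = 0 := by
    have h := node_identity₄ W
    rw [← hrR] at h
    linear_combination h - W.c₄ * h0
  have h2 := W.c_relation
  rw [hΔ, mul_zero, h1] at h2
  have h3 : W.c₄ ^ 3 = 0 := by linear_combination (-1 : k) * h2
  exact hc₄ (pow_eq_zero_iff (by norm_num) |>.mp h3)

/-- **Normal form of a nodal cubic** over an algebraically closed field of any
characteristic. -/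
theorem exists_variableChange_nodal [IsAlgClosed k] (hΔ : W.Δ = 0) (hc₄ : W.c₄ ≠ 0) :
    ∃ C : VariableChange k, C • W = nodal k := by
  obtain ⟨r, t, hFy, hFx, hF, hnode⟩ := exists_singular_point W hΔ hc₄
  -- a tangent direction at the node
  obtain ⟨s, hs⟩ : ∃ s : k, s ^ 2 + W.a₁ * s - (W.a₂ + 3 * r) = 0 := by
    have hdeg : (Polynomial.X ^ 2 + Polynomial.C W.a₁ * Polynomial.X -
        Polynomial.C (W.a₂ + 3 * r) : Polynomial k).degree ≠ 0 := by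
      have : (Polynomial.X ^ 2 + Polynomial.C W.a₁ * Polynomial.X -
          Polynomial.C (W.a₂ + 3 * r) : Polynomial k).degree = 2 := by
        compute_degree!
      rw [this]; norm_num
    obtain ⟨s, hs⟩ := IsAlgClosed.exists_root _ hdeg
    refine ⟨s, ?_⟩
    simpa [Polynomial.IsRoot] using hs
  have hu2 : (W.a₁ + 2 * s) ^ 2 = W.b₂ + 12 * r := by
    simp only [b₂]
    linear_combination 4 * hs
  have hu : W.a₁ + 2 * s ≠ 0 := by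
    intro h0
    rw [h0] at hu2
    exact hnode (by rw [← hu2]; ring)
  refine ⟨⟨Units.mk0 _ hu, r, s, t⟩, ?_⟩
  have hinv : ((Units.mk0 _ hu)⁻¹ : kˣ) = Units.mk0 (W.a₁ + 2 * s)⁻¹ (inv_ne_zero hu) := by
    ext; simp
  ext
  · rw [variableChange_a₁]
    show ((Units.mk0 _ hu)⁻¹ : kˣ).val * (W.a₁ + 2 * s) = 1
    rw [hinv, Units.val_mk0]
    exact inv_mul_cancel₀ hu
  · rw [variableChange_a₂]
    show _ * (W.a₂ - s * W.a₁ + 3 * r - s ^ 2) = 0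
    have : W.a₂ - s * W.a₁ + 3 * r - s ^ 2 = 0 := by linear_combination (-1 : k) * hs
    rw [this, mul_zero]
  · rw [variableChange_a₃]
    show _ * (W.a₃ + r * W.a₁ + 2 * t) = 0
    rw [hFy, mul_zero]
  · rw [variableChange_a₄]
    show _ * (W.a₄ - s * W.a₃ + 2 * r * W.a₂ - (t + r * s) * W.a₁ + 3 * r ^ 2 - 2 * s * t) = 0
    have : W.a₄ - s * W.a₃ + 2 * r * W.a₂ - (t + r * s) * W.a₁ + 3 * r ^ 2 - 2 * s * t = 0 := by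
      linear_combination (-1 : k) * hFx - s * hFy
    rw [this, mul_zero]
  · rw [variableChange_a₆]
    show _ * (W.a₆ + r * W.a₄ + r ^ 2 * W.a₂ + r ^ 3 - t * W.a₃ - t ^ 2 - r * t * W.a₁) = 0
    have : W.a₆ + r * W.a₄ + r ^ 2 * W.a₂ + r ^ 3 - t * W.a₃ - t ^ 2 - r * t * W.a₁ = 0 := by
      linear_combination (-1 : k) * hF
    rw [this, mul_zero]

variable [DecidableEq k]

/-- **Points of exact order `n` on a nodal cubic**: over an algebraically closed field, a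
Weierstrass curve with `Δ = 0`, `c₄ ≠ 0` has a nonsingular point of exact order `n` for every `n`
which is nonzero in the field. -/
theorem exists_addOrderOf_of_node [IsAlgClosed k] (hΔ : W.Δ = 0) (hc₄ : W.c₄ ≠ 0) (n : ℕ)
    (hn : (n : k) ≠ 0) : ∃ P : W.toAffine.Point, addOrderOf P = n := by
  obtain ⟨C, hC⟩ := exists_variableChange_nodal W hΔ hc₄
  have : NeZero (n : k) := ⟨hn⟩
  obtain ⟨P, hP⟩ := exists_addOrderOf_nodal (k := k) n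
  refine ⟨Fermat.Agent.S51lib.vcEquiv' W C hC P, ?_⟩
  rw [← hP]
  exact AddEquiv.addOrderOf_eq (Fermat.Agent.S51lib.vcEquiv' W C hC) P

end field

end Fermat.Agent.S58lib.Mult
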