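/-
S58 library, block E2 (helper9): **multiplicative reduction**.

Let `Wz` be an integral Weierstrass model with `Δ ≠ 0`, `q` a prime with `q ∣ Δ`, `q ∤ c₄`
(multiplicative reduction; `q = 2, 3` allowed), `n` odd and prime to `q`.  For every valuation
subring `A` over `q` of an algebraically closed field `L ⊇ ℚ` there is a point of exact order `n`
on the curve over `L` which is fixed by the whole inertia group of `A`.

Proof: the reduction is a nodal cubic, whose nonsingular points form a group `≅ kˣ`, so it has a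
point of exact order `n` (`Mult/Gm`, `Mult/Normal`); this lifts to an `n`-torsion point (`Red.exists_redPt_lift`),
of exact order `n` because reduction is additive on torsion; and inertia fixes torsion points
which have a (nonsingular) reduction.
-/
import Mathlib
import Fermat.Agent.S18lib.Gink.Residue
import Fermat.Agent.S58lib.Red.Hom
import Fermat.Agent.S58lib.Mult.Normal

set_option autoImplicit false

namespace Fermat.Agent.S58lib.Mult

open IsLocalRing WeierstrassCurve WeierstrassCurve.Affine WeierstrassCurve.Affine.Point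
open Fermat.Agent.S05lib Fermat.Agent.S41lib.NE Fermat.Agent.S58lib.Red

universe u

variable (Wz : WeierstrassCurve ℤ) {L : Type u} [Field L] [Algebra ℚ L]
variable (A : ValuationSubring L)

/-- The coefficientwise reduction of the base change to `L` of an integral model, without
reference to `ZMod`. -/
lemma redCurve_int_cast :
    RedCurve A ((Wz.map (Int.castRingHom ℚ) : WeierstrassCurve ℚ)⁄L)
      (Wz.map (Int.castRingHom (ResidueField A))) := by
  obtain ⟨h1, h2, h3, h4, h6, -⟩ := baseChange_int_coeffs Wz (K := L)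
  refine ⟨?_, ?_, ?_, ?_, ?_⟩
  · rw [h1, WeierstrassCurve.map_a₁, eq_intCast]; exact Res.intCast _
  · rw [h2, WeierstrassCurve.map_a₂, eq_intCast]; exact Res.intCast _
  · rw [h3, WeierstrassCurve.map_a₃, eq_intCast]; exact Res.intCast _
  · rw [h4, WeierstrassCurve.map_a₄, eq_intCast]; exact Res.intCast _
  · rw [h6, WeierstrassCurve.map_a₆, eq_intCast]; exact Res.intCast _

variable {A}

/-- **Multiplicative reduction: a point of exact order `n` fixed by inertia.** -/
theorem exists_fixed_of_multiplicative [DecidableEq L] [IsAlgClosed L] {q : ℕ} (hq : q.Prime)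
    (hΔ0 : Wz.Δ ≠ 0) (hΔ : (q : ℤ) ∣ Wz.Δ) (hc₄ : ¬ (q : ℤ) ∣ Wz.c₄) {n : ℕ} (hn : Odd n)
    (hnq : ¬ q ∣ n) (hA : A.LiesOverPrime q) :
    ∃ P : ((Wz.map (Int.castRingHom ℚ) : WeierstrassCurve ℚ)⁄L).Point,
      addOrderOf P = n ∧ ∀ σ : L ≃ₐ[ℚ] L, σ ∈ A.inertiaSubgroupIn ℚ → σ • P = P := by
  classical
  have hR := redCurve_int_cast Wz A
  have hcoef := baseChange_int_coeffs Wz (K := L)
  have hvn : A.valuation ((n : ℕ) : L) = 1 := val_natCast_eq_one_of_not_dvd hq hA hnq
  -- the reduction is a nodal cubic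
  have hΔb : (Wz.map (Int.castRingHom (ResidueField A))).Δ = 0 := by
    have hres := hR.res_Δ
    rw [hcoef.2.2.2.2.2] at hres
    exact hres.eq_zero_iff.mpr (val_intCast_lt_one_of_dvd hq hA hΔ)
  have hc₄b : (Wz.map (Int.castRingHom (ResidueField A))).c₄ ≠ 0 := by
    have hres := hR.res_c₄
    have e : ((Wz.map (Int.castRingHom ℚ) : WeierstrassCurve ℚ)⁄L).c₄ = (Wz.c₄ : L) := by
      have e' : ((Wz.map (Int.castRingHom ℚ) : WeierstrassCurve ℚ)⁄L) =
          Wz.map (algebraMap ℤ L) := Fermat.Agent.S13lib.baseChange_map_int Wz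
      rw [e', WeierstrassCurve.map_c₄]; simp
    rw [e] at hres
    exact hres.ne_zero_iff.mpr ((val_intCast_eq_one_iff hq hA _).mpr hc₄)
  have hnk : ((n : ℕ) : ResidueField A) ≠ 0 := (Res.natCast (A := A) n).ne_zero_iff.mpr hvn
  have : IsAlgClosed (ResidueField A) := Fermat.Agent.S18lib.Gink.isAlgClosed_residueField A
  -- a point of exact order `n` on the reduction
  obtain ⟨Pb, hPb⟩ := exists_addOrderOf_of_node (Wz.map (Int.castRingHom (ResidueField A)))
    hΔb hc₄b n hnk
  have hPbn : n • Pb = 0 := by rw [← hPb]; exact addOrderOf_nsmul_eq_zero Pb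
  -- lift it
  obtain ⟨m, rfl⟩ := hn
  have hΔL : ((Wz.map (Int.castRingHom ℚ) : WeierstrassCurve ℚ)⁄L).Δ ≠ 0 := by
    rw [hcoef.2.2.2.2.2]
    have : CharZero L := algebraRat.charZero L
    exact Int.cast_ne_zero.mpr hΔ0
  obtain ⟨P, hPn, hP⟩ := exists_redPt_lift hR hΔL m hvn hPbn
  refine ⟨P, ?_, fun σ hσ => smul_eq_self_of_redPt hR hvn hP hPn hσ⟩
  -- exact order
  apply Nat.dvd_antisymm
  · exact addOrderOf_dvd_of_nsmul_eq_zero hPn
  · rw [← hPb]
    apply addOrderOf_dvd_of_nsmul_eq_zero
    have h1 := RedPt.nsmul hR hvn hP hPn (addOrderOf P)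
    rw [addOrderOf_nsmul_eq_zero] at h1
    exact (h1.eq_zero_iff).mp rfl

end Fermat.Agent.S58lib.Mult
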